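import Mathlib
import Fermat.Prelude.Def_EllipticCurve_FrobeniusTrace

set_option autoImplicit false

open scoped Pointwise
open Polynomial

namespace Fermat.Agent.S54.Frobenius

section general

variable {K : Type*} [Field K]

/-- An element lying in every valuation subring is integral over `ℤ`. -/
theorem isIntegral_of_forall_mem_valuationSubring {y : K}
    (h : ∀ V : ValuationSubring K, y ∈ V) : IsIntegral ℤ y := by
  by_contra hy
  have hy' : y ∉ (integralClosure ℤ K).toSubring := hy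
  obtain ⟨V, -, hV⟩ := Subring.exists_le_valuationSubring_of_isIntegrallyClosedIn hy'
  exact hV (h V)

theorem coeff_iterate_divX (p : ℤ[X]) (j n : ℕ) :
    (divX^[j] p).coeff n = p.coeff (n + j) := by
  induction j generalizing n with
  | zero => simp
  | succ j ih =>
    rw [Function.iterate_succ_apply', coeff_divX, ih]
    congr 1
    omega

/-- The Horner sums. -/
noncomputable def horner (p : ℤ[X]) (x : K) (j : ℕ) : K := aeval x (divX^[j] p)

theorem horner_zero (p : ℤ[X]) (x : K) : horner p x 0 = aeval x p := rfl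

theorem horner_succ (p : ℤ[X]) (x : K) (j : ℕ) :
    horner p x j = horner p x (j + 1) * x + (p.coeff j : K) := by
  unfold horner
  conv_lhs => rw [← divX_mul_X_add (divX^[j] p)]
  rw [Function.iterate_succ_apply', map_add, map_mul, aeval_X, aeval_C, coeff_iterate_divX,
    zero_add]
  simp

theorem aeval_int_mem (V : ValuationSubring K) {x : K} (hx : x ∈ V) (q : ℤ[X]) :
    aeval x q ∈ V := by
  induction q using Polynomial.induction_on with
  | C a =>
    rw [aeval_C]
    simp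
  | add p q hp hq => rw [map_add]; exact V.add_mem _ _ hp hq
  | monomial n a h =>
    rw [pow_succ, ← mul_assoc, map_mul, aeval_X]
    exact V.mul_mem _ _ h hx

theorem horner_mem (p : ℤ[X]) {x : K} (hp : aeval x p = 0) (V : ValuationSubring K) (j : ℕ) :
    horner p x j ∈ V ∧ x * horner p x (j + 1) ∈ V := by
  rcases V.mem_or_inv_mem x with hx | hx
  · exact ⟨aeval_int_mem V hx _, V.mul_mem _ _ hx (aeval_int_mem V hx _)⟩
  · by_cases hx0 : x = 0
    · subst hx0
      exact ⟨aeval_int_mem V V.zero_mem _, by simp [V.zero_mem]⟩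
    have key : ∀ j, horner p x j ∈ V := by
      intro j
      induction j with
      | zero => rw [horner_zero, hp]; exact V.zero_mem
      | succ j ih =>
        have h1 : horner p x (j + 1) = (horner p x j - (p.coeff j : K)) * x⁻¹ := by
          rw [horner_succ p x j]; field_simp; ring
        rw [h1]
        refine V.mul_mem _ _ (sub_mem ih ?_) hx
        exact intCast_mem V _
    refine ⟨key j, ?_⟩
    have h2 : x * horner p x (j + 1) = horner p x j - (p.coeff j : K) := by
      rw [horner_succ p x j]; ring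
    rw [h2]
    refine sub_mem (key j) ?_
    exact intCast_mem V _

theorem horner_isIntegral (p : ℤ[X]) {x : K} (hp : aeval x p = 0) (j : ℕ) :
    IsIntegral ℤ (horner p x j) ∧ IsIntegral ℤ (x * horner p x (j + 1)) :=
  ⟨isIntegral_of_forall_mem_valuationSubring fun V => (horner_mem p hp V j).1,
   isIntegral_of_forall_mem_valuationSubring fun V => (horner_mem p hp V j).2⟩

theorem valuation_intCast_le_one (A : ValuationSubring K) (a : ℤ) : A.valuation (a : K) ≤ 1 :=
  (A.valuation_le_one_iff _).mpr (intCast_mem A a)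

theorem valuation_intCast_eq_one (A : ValuationSubring K) {ℓ : ℕ} (hℓ : ℓ.Prime)
    (hA : A.valuation (ℓ : K) < 1) {a : ℤ} (ha : ¬ (ℓ : ℤ) ∣ a) : A.valuation (a : K) = 1 := by
  have hcop : IsCoprime a (ℓ : ℤ) := by
    have h1 : IsCoprime (ℓ : ℤ) a :=
      (Prime.coprime_iff_not_dvd (Nat.prime_iff_prime_int.mp hℓ)).mpr ha
    exact h1.symm
  obtain ⟨u, w, huw⟩ := hcop
  have h1 : A.valuation ((u : K) * a + (w : K) * ℓ) = 1 := by
    have h : ((u : K) * a + (w : K) * ℓ) = 1 := by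
      have := congrArg (Int.cast : ℤ → K) huw
      push_cast at this
      exact this
    rw [h, map_one]
  by_contra hne
  have hlt : A.valuation (a : K) < 1 := lt_of_le_of_ne (valuation_intCast_le_one A a) hne
  have h2 : A.valuation ((u : K) * a + (w : K) * ℓ) < 1 := by
    refine lt_of_le_of_lt (Valuation.map_add A.valuation _ _) (max_lt ?_ ?_)
    · rw [map_mul]
      exact lt_of_le_of_lt (mul_le_of_le_one_left' (valuation_intCast_le_one A u)) hlt
    · rw [map_mul]
      exact lt_of_le_of_lt (mul_le_of_le_one_left' (valuation_intCast_le_one A w)) hA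
  exact absurd h1 h2.ne

theorem exists_integral_fraction [CharZero K] (A : ValuationSubring K) {ℓ : ℕ} (hℓ : ℓ.Prime)
    (hA : A.valuation (ℓ : K) < 1) {x : K} (hx : x ∈ A) (halg : IsAlgebraic ℤ x) :
    ∃ s t : K, IsIntegral ℤ s ∧ IsIntegral ℤ t ∧ A.valuation s = 1 ∧ x * s = t := by
  classical
  obtain ⟨p0, hp0, hp0x⟩ := halg
  set q := p0.primPart with hq
  have hqprim : q.IsPrimitive := p0.isPrimitive_primPart
  have hqx : aeval x q = 0 := by
    have h1 : p0 = C p0.content * q := p0.eq_C_content_mul_primPart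
    rw [h1, map_mul, aeval_C] at hp0x
    have h2 : (algebraMap ℤ K) p0.content ≠ 0 := by
      rw [eq_intCast]
      exact_mod_cast (fun h => hp0 (content_eq_zero_iff.mp h))
    exact (mul_eq_zero.mp hp0x).resolve_left h2
  have hex : ∃ i, ¬ (ℓ : ℤ) ∣ q.coeff i := by
    by_contra hcon
    push Not at hcon
    have h1 : C (ℓ : ℤ) ∣ q := (C_dvd_iff_dvd_coeff _ _).mpr hcon
    have h2 : IsUnit (ℓ : ℤ) := hqprim _ h1
    rw [Int.isUnit_iff] at h2
    rcases h2 with h2 | h2
    · exact hℓ.one_lt.ne' (by exact_mod_cast h2)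
    · have : (0 : ℤ) ≤ (ℓ : ℤ) := Int.natCast_nonneg ℓ
      omega
  obtain ⟨i, hi⟩ := hex
  have hile : i ≤ q.natDegree := by
    by_contra hlt
    exact hi (by rw [coeff_eq_zero_of_natDegree_lt (not_le.mp hlt)]; exact dvd_zero _)
  set j := Nat.findGreatest (fun i => ¬ (ℓ : ℤ) ∣ q.coeff i) q.natDegree with hjdef
  have hj : ¬ (ℓ : ℤ) ∣ q.coeff j := Nat.findGreatest_spec (P := fun i => ¬ (ℓ : ℤ) ∣ q.coeff i) hile hi
  have hgt : ∀ k, j < k → (ℓ : ℤ) ∣ q.coeff k := by
    intro k hk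
    by_cases hkn : k ≤ q.natDegree
    · exact not_not.mp (Nat.findGreatest_is_greatest (P := fun i => ¬ (ℓ : ℤ) ∣ q.coeff i) hk hkn)
    · rw [coeff_eq_zero_of_natDegree_lt (not_le.mp hkn)]; exact dvd_zero _
  have hdvd : C (ℓ : ℤ) ∣ divX^[j + 1] q := by
    rw [C_dvd_iff_dvd_coeff]
    intro n
    rw [coeff_iterate_divX]
    exact hgt _ (by omega)
  obtain ⟨g', hg'⟩ := hdvd
  have hlt : A.valuation (horner q x (j + 1) * x) < 1 := by
    have h1 : horner q x (j + 1) = (ℓ : K) * aeval x g' := by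
      unfold horner
      rw [hg', map_mul, aeval_C]
      simp
    rw [h1, map_mul, map_mul]
    have h2 : A.valuation (aeval x g') ≤ 1 := (A.valuation_le_one_iff _).mpr (aeval_int_mem A hx g')
    have h3 : A.valuation x ≤ 1 := (A.valuation_le_one_iff _).mpr hx
    calc A.valuation (ℓ : K) * A.valuation (aeval x g') * A.valuation x
        ≤ A.valuation (ℓ : K) * 1 * 1 := by gcongr
      _ = A.valuation (ℓ : K) := by simp
      _ < 1 := hA
  have hone : A.valuation (horner q x j) = 1 := by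
    rw [horner_succ q x j]
    have h1 : A.valuation (q.coeff j : K) = 1 := valuation_intCast_eq_one A hℓ hA hj
    rw [Valuation.map_add_eq_of_lt_right _ (by rw [h1]; exact hlt), h1]
  rcases Nat.eq_zero_or_eq_succ_pred j with hj0 | hjs
  · rw [hj0, horner_zero, hqx, map_zero] at hone
    exact absurd hone zero_ne_one
  · rw [hjs] at hone
    exact ⟨horner q x (j - 1 + 1), x * horner q x (j - 1 + 1), (horner_isIntegral q hqx (j - 1 + 1)).1,
      (horner_isIntegral q hqx (j - 1)).2, by simpa using hone, rfl⟩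

end general

section rat

local notation "Qb" => AlgebraicClosure ℚ
local notation "Γ" => (AlgebraicClosure ℚ ≃ₐ[ℚ] AlgebraicClosure ℚ)
local notation "Bint" => integralClosure ℤ (AlgebraicClosure ℚ)

theorem isAlgClosure_rat : IsAlgClosure ℚ (AlgebraicClosure ℚ) := by
  have h : (DivisionRing.toRatAlgebra : Algebra ℚ (AlgebraicClosure ℚ)) =
      AlgebraicClosure.instAlgebra ℚ := Subsingleton.elim _ _
  rw [h]; infer_instance

attribute [local instance] isAlgClosure_rat


theorem isInvariant_int : Algebra.IsInvariant ℤ Bint Γ := by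
  refine ⟨fun b hb => ?_⟩
  have h1 : (b : Qb) ∈ Set.range (algebraMap ℚ Qb) := by
    rw [InfiniteGalois.mem_range_algebraMap_iff_fixed]
    intro f
    exact congrArg Subtype.val (hb f)
  obtain ⟨r, hr⟩ := h1
  have h2 : IsIntegral ℤ r := by
    have h3 : IsIntegral ℤ (algebraMap ℚ Qb r) := hr ▸ b.2
    exact (isIntegral_algebraMap_iff (algebraMap ℚ Qb).injective).mp h3
  obtain ⟨n, hn⟩ := IsIntegrallyClosed.isIntegral_iff.mp h2
  refine ⟨n, Subtype.ext ?_⟩
  rw [← hr, ← hn]
  simp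

theorem continuousSMul_int [TopologicalSpace Bint] [DiscreteTopology Bint] :
    ContinuousSMul Γ Bint := by
  rw [continuousSMul_iff_stabilizer_isOpen]
  intro b
  have h := stabilizer_isOpen_of_isIntegral (K := ℚ) (L := Qb) (b : Qb)
  convert h using 1
  ext g
  simp [MulAction.mem_stabilizer_iff, Subtype.ext_iff]

theorem mem_of_isIntegral_int (A : ValuationSubring Qb) {x : Qb} (hx : IsIntegral ℤ x) :
    x ∈ A := by
  have h1 : IsIntegral A x := hx.tower_top
  obtain ⟨a, ha⟩ := (IsIntegrallyClosed.isIntegral_iff (R := A) (K := Qb)).mp h1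
  exact ha ▸ a.2

theorem isAlgebraic_int (x : Qb) : IsAlgebraic ℤ x :=
  (IsFractionRing.isAlgebraic_iff ℤ ℚ Qb).mpr (Algebra.IsAlgebraic.isAlgebraic x)

/-- The ideal of integral elements of positive valuation. -/
def primeOf (A : ValuationSubring Qb) : Ideal Bint where
  carrier := {b | A.valuation (b : Qb) < 1}
  add_mem' := fun {a b} ha hb =>
    lt_of_le_of_lt (Valuation.map_add A.valuation _ _) (max_lt ha hb)
  zero_mem' := by simp
  smul_mem' := fun c {b} hb => by
    show A.valuation ((c : Qb) * (b : Qb)) < 1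
    rw [map_mul]
    exact lt_of_le_of_lt (mul_le_of_le_one_left'
      ((A.valuation_le_one_iff _).mpr (mem_of_isIntegral_int A c.2))) hb

theorem mem_primeOf (A : ValuationSubring Qb) (b : Bint) :
    b ∈ primeOf A ↔ A.valuation (b : Qb) < 1 := Iff.rfl

theorem primeOf_isPrime (A : ValuationSubring Qb) : (primeOf A).IsPrime := by
  refine ⟨?_, ?_⟩
  · intro h
    have h1 : (1 : Bint) ∈ primeOf A := h ▸ Submodule.mem_top
    rw [mem_primeOf] at h1
    simp at h1
  · intro a b hab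
    rw [mem_primeOf] at hab
    by_contra hcon
    push Not at hcon
    rw [mem_primeOf, mem_primeOf, not_lt, not_lt] at hcon
    have h1 : (1 : A.ValueGroup) ≤ A.valuation ((a * b : Bint) : Qb) := by
      show 1 ≤ A.valuation ((a : Qb) * (b : Qb))
      rw [map_mul]
      exact one_le_mul_of_one_le_of_one_le hcon.1 hcon.2
    exact absurd hab (not_lt.mpr h1)

theorem exists_isFrobeniusAt (A : ValuationSubring Qb) {ℓ : ℕ} (hℓ : ℓ.Prime)
    (hA : A.LiesOverPrime ℓ) : ∃ σ : Γ, A.IsFrobeniusAt σ ℓ := by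
  have hv : A.valuation ((ℓ : ℕ) : Qb) < 1 := A.mem_nonunits_iff.mp hA
  have hle : ∀ b : Bint, A.valuation (b : Qb) ≤ 1 := fun b =>
    (A.valuation_le_one_iff _).mpr (mem_of_isIntegral_int A b.2)
  let Q : Ideal Bint := primeOf A
  have hQprime : Q.IsPrime := primeOf_isPrime A
  have : Fact ℓ.Prime := ⟨hℓ⟩
  have hchar : CharP (Bint ⧸ Q) ℓ := (CharP.charP_iff_prime_eq_zero hℓ).mpr (by
    have h1 : ((ℓ : Bint) : Bint ⧸ Q) = 0 :=
      Ideal.Quotient.eq_zero_iff_mem.mpr (by
        show A.valuation (((ℓ : ℕ) : Bint) : Qb) < 1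
        simpa using hv)
    exact_mod_cast h1)
  have hsurj : Function.Surjective (frobenius (Bint ⧸ Q) ℓ) := by
    intro y
    obtain ⟨b, rfl⟩ := Ideal.Quotient.mk_surjective y
    obtain ⟨c, hc⟩ := IsAlgClosed.exists_pow_nat_eq (b : Qb) hℓ.pos
    have hcint : IsIntegral ℤ c := IsIntegral.of_pow hℓ.pos (hc ▸ b.2)
    refine ⟨Ideal.Quotient.mk Q ⟨c, hcint⟩, ?_⟩
    rw [frobenius_def, ← map_pow]
    congr 1
    exact Subtype.ext hc
  let e : (Bint ⧸ Q) ≃+* (Bint ⧸ Q) :=
    RingEquiv.ofBijective (frobenius (Bint ⧸ Q) ℓ) ⟨frobenius_inj _ _, hsurj⟩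
  let E : (Bint ⧸ Q) ≃ₐ[ℤ ⧸ Q.under ℤ] (Bint ⧸ Q) := AlgEquiv.ofRingEquiv (f := e) (by
    intro x
    obtain ⟨n, rfl⟩ := Ideal.Quotient.mk_surjective x
    have h1 : algebraMap (ℤ ⧸ Q.under ℤ) (Bint ⧸ Q) (Ideal.Quotient.mk _ n) =
        ((n : ℤ) : Bint ⧸ Q) := by
      simp
    rw [h1]
    exact map_intCast e n)
  let _ : TopologicalSpace Bint := ⊥
  have : DiscreteTopology Bint := ⟨rfl⟩
  have := continuousSMul_int
  have := isInvariant_int
  obtain ⟨τ, hτ⟩ := Ideal.Quotient.stabilizerHom_surjective_of_profinite (G := Γ) (Q.under ℤ) Q E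
  have hfrob : ∀ b : Bint, A.valuation ((τ.1 (b : Qb)) - (b : Qb) ^ ℓ) < 1 := by
    intro b
    have h1 := congrArg (fun f => f (Ideal.Quotient.mk Q b)) hτ
    simp only [Ideal.Quotient.stabilizerHom_apply] at h1
    have h2 : E (Ideal.Quotient.mk Q b) = Ideal.Quotient.mk Q (b ^ ℓ) := by
      rw [map_pow]; rfl
    rw [h2, Ideal.Quotient.eq] at h1
    exact h1
  have hstab : ∀ g : Γ, g ∈ MulAction.stabilizer Γ Q → ∀ b : Bint,
      A.valuation (b : Qb) = 1 → A.valuation (g (b : Qb)) = 1 := by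
    intro g hg b hb
    have h1 : g • b ∉ Q := by
      intro h
      have h2 : g • b ∈ g • Q := by rw [MulAction.mem_stabilizer_iff.mp hg]; exact h
      have h3 : b ∈ Q := (Ideal.smul_mem_pointwise_smul_iff).mp h2
      have h4 : A.valuation (b : Qb) < 1 := h3
      rw [hb] at h4
      exact lt_irrefl _ h4
    have h4 := hle (g • b)
    exact le_antisymm h4 (not_lt.mp h1)
  have hmem : ∀ g : Γ, g ∈ MulAction.stabilizer Γ Q → ∀ x ∈ A, g x ∈ A := by
    intro g hg x hx
    obtain ⟨s, t, hs, ht, hs1, hxs⟩ := exists_integral_fraction A hℓ hv hx (isAlgebraic_int x)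
    have h1 : g x * g s = g t := by rw [← map_mul, hxs]
    have h2 : A.valuation (g s) = 1 := hstab g hg ⟨s, hs⟩ hs1
    have h3 : A.valuation (g t) ≤ 1 := hle (g • ⟨t, ht⟩)
    rw [← A.valuation_le_one_iff]
    have h4 := congrArg A.valuation h1
    rw [map_mul, h2, mul_one] at h4
    rw [h4]; exact h3
  have hσmem : τ.1 ∈ A.decompositionSubgroup ℚ := by
    rw [MulAction.mem_stabilizer_iff]
    refine le_antisymm ?_ ?_
    · intro y hy
      obtain ⟨x, hx, rfl⟩ := (ValuationSubring.mem_smul_pointwise_iff_exists _ _ _).mp hy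
      exact hmem τ.1 τ.2 x hx
    · intro x hx
      rw [ValuationSubring.mem_pointwise_smul_iff_inv_smul_mem]
      exact hmem τ.1⁻¹ (inv_mem τ.2) x hx
  refine ⟨τ.1, hσmem, ?_⟩
  intro y
  obtain ⟨a, rfl⟩ := IsLocalRing.residue_surjective y
  rw [← IsLocalRing.ResidueField.residue_smul, ← map_pow, ← sub_eq_zero, ← map_sub,
    IsLocalRing.residue_eq_zero_iff, ValuationSubring.valuation_lt_one_iff]
  have hx : (a : Qb) ∈ A := a.2
  obtain ⟨s, t, hs, ht, hs1, hxs⟩ := exists_integral_fraction A hℓ hv hx (isAlgebraic_int _)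
  have hds := hfrob ⟨s, hs⟩
  have hdt := hfrob ⟨t, ht⟩
  have hσx : A.valuation (τ.1 (a : Qb)) ≤ 1 :=
    (A.valuation_le_one_iff _).mpr (hmem τ.1 τ.2 _ hx)
  have key : (τ.1 (a : Qb) - (a : Qb) ^ ℓ) * s ^ ℓ =
      (τ.1 t - t ^ ℓ) - τ.1 (a : Qb) * (τ.1 s - s ^ ℓ) := by
    have h1 : τ.1 (a : Qb) * τ.1 s = τ.1 t := by rw [← map_mul, hxs]
    have h2 : (a : Qb) ^ ℓ * s ^ ℓ = t ^ ℓ := by rw [← mul_pow, hxs]
    linear_combination h1 - h2
  have h5 := congrArg A.valuation key
  rw [map_mul, map_pow, hs1, one_pow, mul_one] at h5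
  show A.valuation (τ.1 (a : Qb) - (a : Qb) ^ ℓ) < 1
  rw [h5]
  refine lt_of_le_of_lt (Valuation.map_sub A.valuation _ _) (max_lt hdt ?_)
  rw [map_mul]
  exact lt_of_le_of_lt (mul_le_of_le_one_left' hσx) hds

theorem exists_liesOverPrime {ℓ : ℕ} (hℓ : ℓ.Prime) :
    ∃ A : ValuationSubring Qb, A.LiesOverPrime ℓ := by
  let R₀ : Subring Qb := (Int.castRingHom Qb).range
  let l₀ : R₀ := ⟨(ℓ : Qb), ⟨(ℓ : ℤ), by simp⟩⟩
  have hI : Ideal.span {l₀} ≠ ⊤ := by
    rw [Ne, Ideal.span_singleton_eq_top]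
    intro hu
    obtain ⟨⟨y, m, rfl⟩, hy⟩ := hu.exists_right_inv
    have h1 : ((ℓ : Qb)) * ((m : ℤ) : Qb) = 1 := congrArg Subtype.val hy
    have h2 : (ℓ : ℤ) * m = 1 := by exact_mod_cast h1
    have h3 : IsUnit (ℓ : ℤ) := IsUnit.of_mul_eq_one _ h2
    rw [Int.isUnit_iff] at h3
    rcases h3 with h3 | h3
    · exact hℓ.one_lt.ne' (by exact_mod_cast h3)
    · have : (0 : ℤ) ≤ (ℓ : ℤ) := Int.natCast_nonneg ℓ
      omega
  obtain ⟨B, -, hB⟩ := Ideal.image_subset_nonunits_valuationSubring _ hI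
  exact ⟨B, hB ⟨l₀, Ideal.subset_span rfl, rfl⟩⟩

/-- Frobenius elements exist at every prime. -/
theorem exists_frobenius {ℓ : ℕ} (hℓ : ℓ.Prime) :
    ∃ (A : ValuationSubring Qb) (σ : Γ), A.LiesOverPrime ℓ ∧ A.IsFrobeniusAt σ ℓ := by
  obtain ⟨A, hA⟩ := exists_liesOverPrime hℓ
  obtain ⟨σ, hσ⟩ := exists_isFrobeniusAt A hℓ hA
  exact ⟨A, σ, hA, hσ⟩

end rat

end Fermat.Agent.S54.Frobenius
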