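import Fermat.Statements.S54

set_option autoImplicit false
open GaloisRep GaloisRep.DeformationRingData

namespace Fermat.Agent.S54.Wiring

open Polynomial

/-- Existence of Frobenius elements at every prime (hypothesis form). -/
def FrobExistsHyp : Prop :=
  ∀ ℓ : ℕ, ℓ.Prime → ∃ (A : ValuationSubring (AlgebraicClosure ℚ))
    (σ : AlgebraicClosure ℚ ≃ₐ[ℚ] AlgebraicClosure ℚ), A.LiesOverPrime ℓ ∧ A.IsFrobeniusAt σ ℓ

theorem trace_eq_of_charpoly {R : Type} [CommRing R] [Nontrivial R] {M : Type} [AddCommGroup M]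
    [Module R M] [Module.Free R M] [Module.Finite R M] (f : Module.End R M) (a b : R)
    (h : LinearMap.charpoly f = X ^ 2 - C a * X + C b) : LinearMap.trace R M f = a := by
  classical
  let bs := Module.Free.chooseBasis R M
  rw [LinearMap.trace_eq_matrix_trace R bs, Matrix.trace_eq_neg_charpoly_nextCoeff,
    LinearMap.charpoly_toMatrix, h]
  have hdeg : (X ^ 2 - C a * X + C b : R[X]).natDegree = 2 := by
    compute_degree!
  rw [Polynomial.nextCoeff, if_neg (by rw [hdeg]; norm_num), hdeg]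
  simp [Polynomial.coeff_C]

theorem trace_baseChangeAlong {A B : Type} [CommRing A] [IsLocalRing A] [CommRing B]
    [IsLocalRing B] (φ : A →+* B) (hφ : IsLocalHom φ) (ρ : GaloisRepAdic A)
    (σ : AlgebraicClosure ℚ ≃ₐ[ℚ] AlgebraicClosure ℚ) :
    LinearMap.trace B (ρ.baseChangeAlong φ hφ).V ((ρ.baseChangeAlong φ hφ).ρ σ) =
      φ (LinearMap.trace A ρ.V (ρ.ρ σ)) := by
  let _ : Algebra A B := φ.toAlgebra
  exact LinearMap.trace_baseChange (ρ.ρ σ) B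

theorem trace_eq_of_equiv {A : Type} [CommRing A] [IsLocalRing A] {ρ₁ ρ₂ : GaloisRepAdic A}
    (e : GaloisRepAdic.Equiv ρ₁ ρ₂) (σ : AlgebraicClosure ℚ ≃ₐ[ℚ] AlgebraicClosure ℚ) :
    LinearMap.trace A ρ₂.V (ρ₂.ρ σ) = LinearMap.trace A ρ₁.V (ρ₁.ρ σ) := by
  have h : ρ₂.ρ σ = e.toLinearEquiv.conj (ρ₁.ρ σ) := by
    apply LinearMap.ext
    intro x
    rw [LinearEquiv.conj_apply_apply, e.map_apply, LinearEquiv.apply_symm_apply]
  rw [h, LinearMap.trace_conj']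

theorem result_of_frobExists (hF : FrobExistsHyp)
    {𝒪 : Type} [CommRing 𝒪] [IsDomain 𝒪] [IsDiscreteValuationRing 𝒪] [IsAdicComplete (IsLocalRing.maximalIdeal 𝒪) 𝒪] {ρbar : ResidualGaloisRep (IsLocalRing.ResidueField 𝒪)} {𝒟 : ∀ ⦃A : Type⦄ [CommRing A] [IsLocalRing A] [Algebra 𝒪 A], GaloisRepAdic A → Prop} (D : GaloisRep.DeformationRingData 𝒪 ρbar 𝒟) {N : ℕ} [NeZero N] {S : Set ℕ} {θ : CuspForm.heckeAlgebra N 2 S →+* IsLocalRing.ResidueField 𝒪} {T : Type} [CommRing T] [IsLocalRing T] [IsNoetherianRing T] [IsAdicComplete (IsLocalRing.maximalIdeal T) T] [Algebra 𝒪 T] [IsLocalHom (algebraMap 𝒪 T)] [Module.Finite 𝒪 T] [Module.Free 𝒪 T] (H : CuspForm.HeckeGaloisRepDatum N S 𝒪 θ T) (hS : ∀ q : ℕ, q.Prime → q ∣ N → q ∈ S) (h𝒟 : 𝒟 H.ρ) (hres : H.ρ.residual.IsEquiv (ρbar.baseChangeAlong (IsLocalRing.ResidueField.map (algebraMap 𝒪 T)))) : ∃ φ : D.R →ₐ[𝒪] T, Function.Surjective φ ∧ ∃ hφ : IsLocalHom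 (φ : D.R →+* T), (D.ρ.baseChangeAlong (φ : D.R →+* T) hφ).IsEquiv H.ρ := by
  obtain ⟨φ, ⟨hφ, ⟨e⟩⟩, -⟩ := D.universal T H.residue_surjective H.ρ h𝒟 hres
  refine ⟨φ, ?_, hφ, ⟨e⟩⟩
  have htr : ∀ σ : AlgebraicClosure ℚ ≃ₐ[ℚ] AlgebraicClosure ℚ,
      LinearMap.trace T H.ρ.V (H.ρ.ρ σ) ∈ φ.range := by
    intro σ
    rw [trace_eq_of_equiv e σ, trace_baseChangeAlong]
    exact ⟨_, rfl⟩
  have hT : ∀ (ℓ : ℕ) (hℓ : ℓ.Prime) (hℓN : ¬ ℓ ∣ N) (hℓS : ℓ ∉ S),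
      H.π (CuspForm.heckeAlgebra.T hℓ hℓN hℓS) ∈ φ.range := by
    intro ℓ hℓ hℓN hℓS
    obtain ⟨A, σ, hA, hσ⟩ := hF ℓ hℓ
    have h := H.charpoly_frob ℓ hℓ hℓN hℓS A hA σ hσ
    rw [← trace_eq_of_charpoly _ _ _ h]
    exact htr σ
  have hπ : ∀ (x : Module.End ℂ (CuspForm (CongruenceSubgroup.Gamma0 N) 2))
      (hx : x ∈ Algebra.adjoin ℤ (CuspForm.heckeGenerators N 2 S)),
      H.π ⟨x, hx⟩ ∈ φ.range := by
    intro x hx
    induction hx using Algebra.adjoin_induction with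
    | mem x hx =>
      rcases hx with ⟨ℓ, hℓ, hℓN, hℓS, rfl⟩ | ⟨q, hqN, hq, hqS, rfl⟩
      · exact hT ℓ hℓ hℓN hℓS
      · exact absurd (hS q hq hqN) hqS
    | algebraMap r =>
      have : (⟨algebraMap ℤ _ r, Subalgebra.algebraMap_mem _ r⟩ : CuspForm.heckeAlgebra N 2 S) =
          (r : CuspForm.heckeAlgebra N 2 S) := by
        apply Subtype.ext
        simp
      rw [this, map_intCast]
      exact Subalgebra.intCast_mem _ r
    | add x y hx hy hx' hy' =>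
      have : (⟨x + y, Subalgebra.add_mem _ hx hy⟩ : CuspForm.heckeAlgebra N 2 S) =
          (⟨x, hx⟩ : CuspForm.heckeAlgebra N 2 S) + ⟨y, hy⟩ := rfl
      rw [this, map_add]
      exact Subalgebra.add_mem _ hx' hy'
    | mul x y hx hy hx' hy' =>
      have : (⟨x * y, Subalgebra.mul_mem _ hx hy⟩ : CuspForm.heckeAlgebra N 2 S) =
          (⟨x, hx⟩ : CuspForm.heckeAlgebra N 2 S) * ⟨y, hy⟩ := rfl
      rw [this, map_mul]
      exact Subalgebra.mul_mem _ hx' hy'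
  have hrange : Set.range H.π ⊆ (φ.range : Set T) := by
    rintro _ ⟨⟨x, hx⟩, rfl⟩
    exact hπ x hx
  have htop : φ.range = ⊤ := by
    apply top_unique
    rw [← H.adjoin_range_π]
    exact Algebra.adjoin_le hrange
  intro t
  have : t ∈ φ.range := htop ▸ Algebra.mem_top
  exact this

end Fermat.Agent.S54.Wiring
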